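import Fermat.Agent.RT.Frey.Top
import Fermat.Agent.RT.Lift59.Squarefree
import Fermat.Agent.RT.MazurQ.EigenClass
import Fermat.Agent.RT.Two.Twin.Main
import Fermat.Agent.S09
import Fermat.Agent.S43
import Fermat.Agent.S44

/-!
# Fermat's Last Theorem from lifting at two and switching through five

The Frey curve is congruent modulo five to a curve with `3 ∣ v₂(Δ)`, which is congruent modulo
three to a curve with supersingular reduction at two and dihedral two-torsion. The latter is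
modular by a theta series and minimal lifting at two, and modularity comes back by lifting at
three and at five from squarefree levels.
-/

set_option autoImplicit false

open WeierstrassCurve
open CuspForm

namespace Fermat.Agent.RT.Two

/-- Semistable, good supersingular at two, negative discriminant with odd exponents. -/
structure IsTwinCurve (E : WeierstrassCurve ℤ) : Prop where
  semistable : E.IsSemistableModel
  even_a₁ : Even E.a₁
  odd_a₃ : Odd E.a₃
  neg : E.Δ < 0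
  odd_exponent : ∀ q : ℕ, q.Prime → (q : ℤ) ∣ E.Δ → Odd (padicValInt q E.Δ)

theorem IsTwinCurve.Δ_ne_zero {E : WeierstrassCurve ℤ} (h : IsTwinCurve E) : E.Δ ≠ 0 :=
  h.neg.ne

/-- The good odd primes of a curve. -/
def GoodOdd (E : WeierstrassCurve ℤ) (l : ℕ) : Prop :=
  E.IsGoodPrimeFor l ∧ l ≠ 2

/-- The traces, as natural numbers with the same parity. -/
noncomputable def parityAp (E : WeierstrassCurve ℤ) (l : ℕ) : ℕ :=
  (E.apOfModel l).natAbs

/-- The seed: the two-torsion of a twin curve occurs at its conductor level. -/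
def SeedInput : Prop := ∀ E : WeierstrassCurve ℤ, IsTwinCurve E →
  MazurP.HasCong E.conductorLevel 2 (GoodOdd E) (parityAp E)

/-- Minimal lifting at two. -/
def LiftTwoInput : Prop := ∀ E : WeierstrassCurve ℤ, IsTwinCurve E →
  MazurP.HasCong E.conductorLevel 2 (GoodOdd E) (parityAp E) →
  E.IsModularModelOfLevel E.conductorLevel

/-- The switch through the five-torsion. -/
def SwitchTwoInput : Prop := ∀ W : WeierstrassCurve ℤ, W.Δ ≠ 0 → W.IsSemistableModel →
  (2 : ℤ) ∣ W.Δ → ∃ W₁ : WeierstrassCurve ℤ, W₁.Δ ≠ 0 ∧ W₁.IsSemistableModel ∧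
    W₁.ModRepIsIrreducible 3 ∧ (2 : ℤ) ∣ W₁.Δ ∧ 3 ∣ padicValInt 2 W₁.Δ ∧
    ∀ l : ℕ, l.Prime → W.IsGoodPrimeFor l → W₁.IsGoodPrimeFor l → l ≠ 5 →
      (5 : ℤ) ∣ W₁.apOfModel l - W.apOfModel l

/-- The five-torsion of a Frey curve is irreducible. -/
def FreyFiveInput : Prop := ∀ P : FreyPackage, P.freyCurveInt.ModRepIsIrreducible 5

/-- A modular congruent curve gives residual modularity. -/
theorem residuallyModular_of_congr {W W' : WeierstrassCurve ℤ} {p N : ℕ} (hp : p.Prime)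
    (hmod : W'.IsModularModelOfLevel N)
    (hgood : ∀ ℓ : ℕ, ℓ.Prime → ¬ ℓ ∣ N → W'.IsGoodPrimeFor ℓ)
    (hcong : ∀ ℓ : ℕ, ℓ.Prime → W.IsGoodPrimeFor ℓ → W'.IsGoodPrimeFor ℓ → ℓ ≠ p →
      (p : ℤ) ∣ W'.apOfModel ℓ - W.apOfModel ℓ) :
    W.IsResiduallyModularOfLevel p N := by
  obtain ⟨f, hf, hfW⟩ := hmod
  obtain ⟨𝔪, h𝔪, hpm⟩ := FLTPrelim.exists_maximalIdeal_natCast_prime_mem hp
  refine ⟨f, 𝔪, hf, h𝔪, hpm, fun ℓ hℓ hW hℓN hℓp => ?_⟩
  obtain ⟨k, hk⟩ := hcong ℓ hℓ hW (hgood ℓ hℓ hℓN) hℓp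
  refine ⟨(W'.apOfModel ℓ : integralClosure ℤ ℂ), ?_, ?_⟩
  · rw [hfW ℓ hℓ (hgood ℓ hℓ hℓN) hℓN]
    norm_cast
  · rw [← Int.cast_sub, hk]
    push_cast
    exact Ideal.mul_mem_right _ _ hpm

theorem two_dvd_freyΔ (P : FreyPackage) : (2 : ℤ) ∣ P.freyCurveInt.Δ := by
  have h := EC.Reduction.Frey.Δ_eq P
  obtain ⟨b', hb'⟩ := (ZMod.intCast_zmod_eq_zero_iff_dvd P.b 2).1 P.hb2
  have hp := P.hp5
  obtain ⟨j, hj⟩ : ∃ j, 2 * P.p = 9 + j := ⟨2 * P.p - 9, by omega⟩
  refine ⟨(P.a * b' * P.c) ^ (2 * P.p) * 2 ^ j, mul_left_cancel₀ (pow_ne_zero 8 two_ne_zero) ?_⟩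
  rw [h, hb', hj]
  push_cast
  ring

theorem frey_exact (hSw : SwitchTwoInput) (h5 : FreyFiveInput) (hS : SeedInput)
    (hL2 : LiftTwoInput) (hP : Lift59.AtPInput) (hSc : Lift59.ScalarInput)
    (hL : Lift59.LiftInput) (P : FreyPackage) :
    Mlc1IsModularModelOfExactConductorLevel P.freyCurveInt := by
  have hΔ := EC.Reduction.Frey.Δ_ne_zero P
  have hW := Frey.freyCurveInt_isSemistableModel P
  obtain ⟨W₁, hΔ₁, hW₁, h3, h12, h13, hc5⟩ := hSw _ hΔ hW (two_dvd_freyΔ P)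
  obtain ⟨E, hE, he1, he3, hneg, hodd, hc3⟩ := Twin.exists_twin_of_odd W₁ hW₁ hΔ₁ h13 h3
    (by simpa using hW₁ 2 Nat.prime_two (by simpa using h12))
  have hT : IsTwinCurve E := ⟨hE, he1, he3, hneg, hodd⟩
  have hEmod := hL2 E hT (hS E hT)
  have hgoodE : ∀ ℓ : ℕ, ℓ.Prime → ¬ ℓ ∣ E.conductorLevel → E.IsGoodPrimeFor ℓ := fun ℓ hℓ h hd =>
    h ((E.prime_dvd_conductorLevel_iff hT.Δ_ne_zero hℓ).2 hd)
  have hres₁ := residuallyModular_of_congr (W := W₁) Nat.prime_three hEmod hgoodE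
    fun ℓ hℓ hg hg' hne => hc3 ℓ hℓ hg hg' hne
  obtain ⟨N, -, hsq, hsupp, hmod⟩ := Lift59.exactConductorLevel_of_squarefree hP hSc hL
    ⟨⟨Nat.prime_three, by norm_num⟩, hΔ₁, hW₁, h3⟩ E.squarefree_conductorLevel hres₁
  have hres : P.freyCurveInt.IsResiduallyModularOfLevel 5 N :=
    residuallyModular_of_congr (by norm_num) hmod
      (fun ℓ hℓ h hd => h ((hsupp ℓ hℓ).2 hd))
      fun ℓ hℓ hg hg' hne => hc5 ℓ hℓ hg hg' hne
  exact Lift59.exactConductorLevel_of_squarefree hP hSc hL ⟨⟨Nat.prime_five, by norm_num⟩, hΔ, hW, h5 P⟩ hsq hres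

/-- A Frey curve which is modular of exact conductor level is modular. -/
theorem frey_isModular (P : FreyPackage)
    (h : Mlc1IsModularModelOfExactConductorLevel P.freyCurveInt) : P.freyCurve.IsModular := by
  obtain ⟨N, hN, -, -, hmod⟩ := h
  exact ⟨P.freyCurveInt, Frey.freyCurveInt_isIntegralModel P, N, hN, hmod⟩

/-- A Frey curve which is modular of exact conductor level has a conductor level at which its
residual representation is modular. -/
theorem exists_conductorLevel (P : FreyPackage)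
    (h : Mlc1IsModularModelOfExactConductorLevel P.freyCurveInt) :
    ∃ N : ℕ, P.IsConductorLevel N ∧ P.ModularRepOfLevel N := by
  obtain ⟨N, hN, hsq, hsupp, f, hf, hfW⟩ := h
  obtain ⟨𝔪, h𝔪, hpm⟩ := FLTPrelim.exists_maximalIdeal_natCast_prime_mem P.pp
  refine ⟨N, ⟨hN, hsq, fun q hq hqN => by_contra fun h' =>
    EC.Reduction.Frey.not_dvd_Δ P hq h' ((hsupp q hq).1 hqN)⟩, f, P.freyCurveInt, 𝔪, hf,
    Frey.freyCurveInt_isIntegralModel P, h𝔪, hpm, fun ℓ hℓ hgood hℓN _ => ?_⟩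
  refine ⟨(P.freyCurveInt.apOfModel ℓ : integralClosure ℤ ℂ), ?_, by rw [sub_self]; exact zero_mem _⟩
  rw [hfW ℓ hℓ hgood hℓN]
  norm_cast

/-- No Frey curve is modular of exact conductor level: level lowering reaches level two. -/
theorem no_frey (P : FreyPackage)
    (h : Mlc1IsModularModelOfExactConductorLevel P.freyCurveInt) : False := by
  obtain ⟨f, hf⟩ := Frey.exists_form_two
    (fun P N q h1 h2 h3 h4 h5 h6 h7 h8 => S43.result P h1 h2 h3 h4 h5 h6 h7 h8)
    (fun P N h1 h2 h3 h4 => S44.result P h1 h2 h3 h4) P (S09.result P) (exists_conductorLevel P h)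
  exact hf (S07.result f)

/-- **Fermat's Last Theorem from the inputs.** -/
theorem fermat_of_inputs (hSw : SwitchTwoInput) (h5 : FreyFiveInput) (hS : SeedInput)
    (hL2 : LiftTwoInput) (hP : Lift59.AtPInput) (hSc : Lift59.ScalarInput)
    (hL : Lift59.LiftInput) (n : ℕ) (hn : 3 ≤ n) (a b c : ℕ)
    (ha : 0 < a) (hb : 0 < b) (hc : 0 < c) : a ^ n + b ^ n ≠ c ^ n :=
  Frey.fermat_of_noFreyPackage (fun P => no_frey P (frey_exact hSw h5 hS hL2 hP hSc hL P))
    n hn a b c ha hb hc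

end Fermat.Agent.RT.Two
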