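import Fermat.Agent.RT.Two.Lift.Main
import Fermat.Agent.RT.Two.Switch.Main
import Fermat.Agent.RT.Two.Switch.Frey
import Fermat.Agent.RT.Lift59.AtP.Main
import Fermat.Agent.RT.Two.Select.HGen
import Fermat.Agent.RT.Two.Hecke.Main
import Fermat.Agent.RT.Two.Curve.Main
import Fermat.Agent.RT.Lift59.Scalar.Strict

/-!
# Fermat's Last Theorem from the seed and the liftings at odd primes

The inputs of `fermat_of_inputs` other than the theta seed and the lifting at three and five from
minimal levels are discharged here. Those two are supplied in `Fermat.Agent.RT.Two.Final`.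
-/

set_option autoImplicit false

open IsLocalRing WeierstrassCurve

namespace Fermat.Agent.RT.Two

/-- The Hecke side for every coefficient ring. -/
def HeckeAllInput : Prop :=
  ∀ (O : Type) [CommRing O] [IsDomain O] [IsDiscreteValuationRing O]
    [IsAdicComplete (maximalIdeal O) O] [Finite (ResidueField O)] [CharZero O]
    [Algebra (ZMod 2) (ResidueField O)], HeckeSideInput O

theorem switchTwoInput : SwitchTwoInput := Switch.exists_switch_two

theorem freyFiveInput : FreyFiveInput := Switch.frey_modRepIsIrreducible_five

theorem heckeAllInput : HeckeAllInput := fun O _ _ _ _ _ _ _ => heckeSideInput O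

theorem tangentInput : TangentInput := fun _ _ _ _ _ _ _ _ _ _ _ T L hR hdet hdual rz hrz o b =>
  Select.hgen_of_detect T L hR hdet hdual rz hrz o b

/-- Exact modularity of the Frey curve from the seed and the lifting at odd primes. -/
theorem frey_exact_of_inputs (hS : SeedInput)
    (hL : Lift59.LiftInput) (P : FreyPackage) :
    Mlc1IsModularModelOfExactConductorLevel P.freyCurveInt :=
  frey_exact switchTwoInput freyFiveInput hS (liftTwo_of_inputs heckeAllInput tangentInput curveInput) Lift59.AtP.atPInput
    Lift59.Scalar.scalarInput hL P

/-- **Fermat's Last Theorem from the seed and the lifting at odd primes.** -/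
theorem fermat_of_remaining (hS : SeedInput)
    (hL : Lift59.LiftInput) (n : ℕ) (hn : 3 ≤ n)
    (a b c : ℕ) (ha : 0 < a) (hb : 0 < b) (hc : 0 < c) : a ^ n + b ^ n ≠ c ^ n :=
  fermat_of_inputs switchTwoInput freyFiveInput hS (liftTwo_of_inputs heckeAllInput tangentInput curveInput)
    Lift59.AtP.atPInput Lift59.Scalar.scalarInput hL n hn a b c ha hb hc

end Fermat.Agent.RT.Two
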