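import Fermat.Agent.RT.Two.Endgame
import Fermat.Agent.RT.Lift59.LiftMain
import Fermat.Agent.RT.Two.Theta.Seed

/-!
# Fermat's Last Theorem

All inputs of the route through the minimal lifting at two are proved.
-/

set_option autoImplicit false

namespace Fermat.Agent.RT.Two

/-- Every Frey curve is modular of exact conductor level. -/
theorem freyExact (P : FreyPackage) :
    Mlc1IsModularModelOfExactConductorLevel P.freyCurveInt :=
  frey_exact_of_inputs seedInput Lift59.liftInput P

/-- **Fermat's Last Theorem.** -/
theorem fermat (n : ℕ) (hn : 3 ≤ n) (a b c : ℕ) (ha : 0 < a) (hb : 0 < b) (hc : 0 < c) :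
    a ^ n + b ^ n ≠ c ^ n :=
  fermat_of_remaining seedInput Lift59.liftInput n hn a b c ha hb hc

end Fermat.Agent.RT.Two
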